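import Fermat.Agent.S20.Defs

/-!
# S20 / S2 / Dim: `dim S₂(Γ₀(N)) = #{y : k y = 10}`

## Proof sketch
Write `F τ := Fmat k f τ` (invertible for every `τ` by `hdet`), `Δ := discriminant`.
For `y` with `k y = 10` let `g y : CuspForm (Γ N) 2` be the dual form from `hdual y`
(cast along `12 - k y = 2`; work with the underlying functions:
`tw 2 (g y) x τ = Δ τ * (F τ)⁻¹ y x`).

* Independence: if `∑_{y : k y = 10} c y • g y = 0` then for all `x`, `τ`:
  `∑_y c y * Δ τ * (F τ)⁻¹ y x = 0` (apply `tw 2 · x`, `tw_sum`, `tw_smul`), so `c ᵥ* (F τ)⁻¹ = 0`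
  (extend `c` by zero), hence `c = 0`.
* Spanning: let `s : CuspForm (Γ N) 2`. For each `y` put
  `t y τ := ∑ x, tw 2 s x τ * tw (k y) (f y) x τ = ∑ x, tw (2 + k y) (s * f y) x τ` (`tw_mul`).
  It is invariant under all of `SL(2,ℤ)` in weight `2 + k y` (`tw_slash` permutes the summands:
  reindex by the bijection `x ↦ h⁻¹ • x`), holomorphic (`tw_mdifferentiable`) and zero at `i∞`
  (`tw_isZeroAtImInfty` for `s`, `tw_isBoundedAtImInfty` for `f y`), so it is a level one cusp form
  (`mkCF1`) of weight `k y + 2 ≤ 12`. Hence `t y = 0` if `k y < 10`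
  (`CuspForm.rank_eq_zero_of_weight_lt_twelve`-like lemma / `levelOne` dimension results) and
  `t y = c y • Δ` if `k y = 10` (`CuspForm.exists_smul_discriminant_of_weight_eq_twelve`-like lemma,
  or `CuspForm.discriminantEquiv` + weight-zero forms are constants). In matrix form:
  `(tw 2 s · τ) ᵥ* F τ = Δ τ • c'` where `c' y = c y` if `k y = 10` and `0` otherwise; multiplying
  by `(F τ)⁻¹`: `tw 2 s x τ = ∑ y, c' y * Δ τ * (F τ)⁻¹ y x = ∑_{k y = 10} c y * tw 2 (g y) x τ`;
  at `x = X.one N` (`tw_one`, with `inv_of_modularForm`) this reads `s = ∑ c y • g y`.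
* Conclude with `Module.finrank_eq_card_basis` (basis from `Basis.mk`) or
  `finrank_eq_card_basis`/`LinearIndependent` + `span = ⊤` (`finrank_span_eq_card`).
-/

set_option autoImplicit false

open UpperHalfPlane hiding I
open ModularForm CongruenceSubgroup Matrix.SpecialLinearGroup Real Complex
open scoped MatrixGroups ModularForm Manifold

namespace Fermat.Agent.S20

/-- Level one cusp forms of weight `< 12` vanish (function version). -/
lemma s2d_levelOne_zero (w : ℤ) (hw : w < 12) (t : ℍ → ℂ)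
    (hinv : ∀ γ : SL(2, ℤ), t ∣[w] γ = t) (hol : MDiff t) (hz : IsZeroAtImInfty t) : t = 0 := by
  have h := CuspForm.rank_eq_zero_of_weight_lt_twelve hw
  rw [rank_zero_iff_forall_zero] at h
  have h2 := h (mkCF1 w t hinv hol hz)
  have h3 := congrArg (fun g : CuspForm 𝒮ℒ w => (g : ℍ → ℂ)) h2
  simpa using h3

/-- Level one cusp forms of weight `12` are multiples of `Δ` (function version). -/
lemma s2d_levelOne_twelve (w : ℤ) (hw : w = 12) (t : ℍ → ℂ)
    (hinv : ∀ γ : SL(2, ℤ), t ∣[w] γ = t) (hol : MDiff t) (hz : IsZeroAtImInfty t) :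
    ∃ c : ℂ, ∀ τ, t τ = c * discriminant τ := by
  subst hw
  obtain ⟨c, hc⟩ :=
    CuspForm.exists_smul_discriminant_of_weight_eq_twelve (mkCF1 12 t hinv hol hz)
  refine ⟨c, fun τ => ?_⟩
  have h3 := DFunLike.congr_fun hc τ
  simpa using h3.symm

/-- The pairing of a weight `2` cusp form with a modular form, summed over the cosets. -/
noncomputable def s2d_pair {N : ℕ} [NeZero N] {w : ℤ} (s : CuspForm (Γ N) 2)
    (g : ModularForm (Γ N) w) : ℍ → ℂ :=
  ∑ x : X N, tw 2 (s : ℍ → ℂ) x * tw w (g : ℍ → ℂ) x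

lemma s2d_pair_apply {N : ℕ} [NeZero N] {w : ℤ} (s : CuspForm (Γ N) 2)
    (g : ModularForm (Γ N) w) (τ : ℍ) :
    s2d_pair s g τ = ∑ x : X N, tw 2 (s : ℍ → ℂ) x τ * tw w (g : ℍ → ℂ) x τ := by
  simp [s2d_pair, Finset.sum_apply]

lemma s2d_pair_slash {N : ℕ} [NeZero N] {w : ℤ} (s : CuspForm (Γ N) 2)
    (g : ModularForm (Γ N) w) (γ : SL(2, ℤ)) : (s2d_pair s g) ∣[2 + w] γ = s2d_pair s g := by
  have h : ∀ x : X N, (tw 2 (s : ℍ → ℂ) x * tw w (g : ℍ → ℂ) x) ∣[2 + w] γ =
      tw 2 (s : ℍ → ℂ) (γ⁻¹ • x) * tw w (g : ℍ → ℂ) (γ⁻¹ • x) := by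
    intro x
    rw [mul_slash_SL2, tw_slash (inv_of_modularForm s), tw_slash (inv_of_modularForm g)]
  rw [s2d_pair, SlashAction.sum_slash, Finset.sum_congr rfl (fun x _ => h x)]
  exact (MulAction.bijective γ⁻¹).sum_comp
    (fun x : X N => tw 2 (s : ℍ → ℂ) x * tw w (g : ℍ → ℂ) x)

lemma s2d_pair_mdiff {N : ℕ} [NeZero N] {w : ℤ} (s : CuspForm (Γ N) 2)
    (g : ModularForm (Γ N) w) : MDiff (s2d_pair s g) := by
  rw [s2d_pair]
  apply MDifferentiable.sum
  intro x _
  exact (tw_mdifferentiable (CuspFormClass.holo s) x).mul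
    (tw_mdifferentiable (ModularFormClass.holo g) x)

lemma s2d_pair_zero {N : ℕ} [NeZero N] {w : ℤ} (s : CuspForm (Γ N) 2)
    (g : ModularForm (Γ N) w) : IsZeroAtImInfty (s2d_pair s g) := by
  classical
  have h : ∀ S : Finset (X N),
      IsZeroAtImInfty (∑ x ∈ S, tw 2 (s : ℍ → ℂ) x * tw w (g : ℍ → ℂ) x) := by
    intro S
    induction S using Finset.induction_on with
    | empty =>
      rw [Finset.sum_empty]
      exact Filter.zero_zeroAtFilter _
    | insert a S ha ih =>
      rw [Finset.sum_insert ha]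
      exact Filter.ZeroAtFilter.add
        ((tw_isZeroAtImInfty s a).mul_boundedAtFilter (tw_isBoundedAtImInfty g a)) ih
  exact h _

/-- The pairing with a form of weight `≤ 10` is a multiple of `Δ`, and zero if the weight is
not `10`. -/
lemma s2d_pair_eq {N : ℕ} [NeZero N] {w : ℤ} (hw : w ≤ 10) (s : CuspForm (Γ N) 2)
    (g : ModularForm (Γ N) w) :
    ∃ c : ℂ, (w ≠ 10 → c = 0) ∧ ∀ τ, s2d_pair s g τ = c * discriminant τ := by
  by_cases h10 : w = 10
  · obtain ⟨c, hc⟩ := s2d_levelOne_twelve (2 + w) (by omega) _ (s2d_pair_slash s g)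
      (s2d_pair_mdiff s g) (s2d_pair_zero s g)
    exact ⟨c, fun h => absurd h10 h, hc⟩
  · have h0 := s2d_levelOne_zero (2 + w) (by omega) _ (s2d_pair_slash s g)
      (s2d_pair_mdiff s g) (s2d_pair_zero s g)
    exact ⟨0, fun _ => rfl, fun τ => by rw [h0]; simp⟩

lemma s2d_sum_subtype {α : Type*} [Fintype α] (p : α → Prop) [DecidablePred p] (φ : α → ℂ) :
    ∑ i : {y // p y}, φ i.1 = ∑ y, if p y then φ y else 0 := by
  rw [← Finset.sum_filter]
  exact (Finset.sum_subtype (Finset.univ.filter p) (by simp) φ).symm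

lemma s2d_coe_sum {N : ℕ} {w : ℤ} {ι : Type*} (S : Finset ι) (g : ι → CuspForm (Γ N) w) :
    ((∑ i ∈ S, g i : CuspForm (Γ N) w) : ℍ → ℂ) = ∑ i ∈ S, (g i : ℍ → ℂ) := by
  classical
  induction S using Finset.induction_on with
  | empty => simp
  | insert a S ha ih => rw [Finset.sum_insert ha, Finset.sum_insert ha, FunLike.coe_add, ih]

lemma s2d_sum_smul_apply {N : ℕ} {ι : Type*} [Fintype ι] (c : ι → ℂ)
    (G : ι → CuspForm (Γ N) 2) (τ : ℍ) :
    (∑ i, c i • G i : CuspForm (Γ N) 2) τ = ∑ i, c i * G i τ := by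
  have h := congrFun (s2d_coe_sum Finset.univ (fun i => c i • G i)) τ
  rw [h, Finset.sum_apply]
  rfl

theorem s2_dim (N : ℕ) [NeZero N] (k : X N → ℤ) (f : ∀ y, ModularForm (Γ N) (k y))
    (hk : ∀ y, 0 ≤ k y ∧ k y ≤ 10 ∧ Even (k y))
    (hdet : ∀ τ : ℍ, (Fmat k f τ).det ≠ 0)
    (hdual : ∀ y, ∃ g : CuspForm (Γ N) (12 - k y), ∀ (x : X N) (τ : ℍ),
      tw (12 - k y) (g : ℍ → ℂ) x τ = discriminant τ * ((Fmat k f τ)⁻¹) y x) :
    Module.finrank ℂ (CuspForm (Γ N) 2) = Fintype.card {y // k y = 10} := by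
  -- dual forms of weight 2
  have hG : ∀ i : {y // k y = 10}, ∃ g : CuspForm (Γ N) 2, ∀ (x : X N) (τ : ℍ),
      tw 2 (g : ℍ → ℂ) x τ = discriminant τ * ((Fmat k f τ)⁻¹) i.1 x := by
    rintro ⟨y, hy⟩
    have h2 : 12 - k y = 2 := by omega
    have h := hdual y
    rw [h2] at h
    exact h
  choose G hG using hG
  have hU : ∀ τ : ℍ, IsUnit (Fmat k f τ).det := fun τ => isUnit_iff_ne_zero.mpr (hdet τ)
  have hGval : ∀ (i : {y // k y = 10}) (τ : ℍ),
      G i τ = discriminant τ * ((Fmat k f τ)⁻¹) i.1 (X.one N) := by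
    intro i τ
    rw [← hG i (X.one N) τ, tw_one (inv_of_modularForm (G i))]
  -- linear independence
  have hli : LinearIndependent ℂ G := by
    rw [Fintype.linearIndependent_iff]
    intro c hc j
    have hcoe : (∑ i, c i • (G i : ℍ → ℂ)) = 0 := by
      have h0 := congrArg (fun g : CuspForm (Γ N) 2 => (g : ℍ → ℂ)) hc
      simp only [s2d_coe_sum] at h0
      simpa using h0
    have h1 : ∀ x : X N,
        ∑ i, c i * (discriminant UpperHalfPlane.I * ((Fmat k f UpperHalfPlane.I)⁻¹) i.1 x) = 0 := by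
      intro x
      have h0 := congrFun (congrArg (fun φ : ℍ → ℂ => tw 2 φ x) hcoe) UpperHalfPlane.I
      simp only [tw_sum, tw_smul, tw_zero, Finset.sum_apply, Pi.smul_apply, smul_eq_mul,
        Pi.zero_apply, hG] at h0
      exact h0
    have h2 : ∑ x, (∑ i, c i * (discriminant UpperHalfPlane.I *
          ((Fmat k f UpperHalfPlane.I)⁻¹) i.1 x)) * Fmat k f UpperHalfPlane.I x j.1 =
        discriminant UpperHalfPlane.I * c j := by
      calc ∑ x, (∑ i, c i * (discriminant UpperHalfPlane.I *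
            ((Fmat k f UpperHalfPlane.I)⁻¹) i.1 x)) * Fmat k f UpperHalfPlane.I x j.1
          = ∑ i, discriminant UpperHalfPlane.I * c i *
              ∑ x, ((Fmat k f UpperHalfPlane.I)⁻¹) i.1 x * Fmat k f UpperHalfPlane.I x j.1 := by
            simp only [Finset.sum_mul, Finset.mul_sum]
            rw [Finset.sum_comm]
            exact Finset.sum_congr rfl (fun i _ => Finset.sum_congr rfl (fun x _ => by ring))
        _ = ∑ i, discriminant UpperHalfPlane.I * c i * (if i = j then 1 else 0) := by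
            refine Finset.sum_congr rfl (fun i _ => ?_)
            rw [← Matrix.mul_apply, Matrix.nonsing_inv_mul _ (hU _), Matrix.one_apply]
            simp [Subtype.ext_iff]
        _ = discriminant UpperHalfPlane.I * c j := by simp
    rw [Finset.sum_congr rfl (fun x _ => by rw [h1 x, zero_mul])] at h2
    simp only [Finset.sum_const_zero] at h2
    rcases mul_eq_zero.mp h2.symm with h | h
    · exact absurd h (discriminant_ne_zero _)
    · exact h
  -- spanning
  have hsp : ⊤ ≤ Submodule.span ℂ (Set.range G) := by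
    intro s _
    have hc : ∀ y, ∃ c : ℂ, (k y ≠ 10 → c = 0) ∧
        ∀ τ, s2d_pair s (f y) τ = c * discriminant τ := fun y => s2d_pair_eq (hk y).2.1 s (f y)
    choose c' hc'0 hc' using hc
    have hs : s = ∑ i : {y // k y = 10}, c' i.1 • G i := by
      ext τ
      rw [s2d_sum_smul_apply]
      have e1 : Matrix.vecMul (fun x => tw 2 (s : ℍ → ℂ) x τ) (Fmat k f τ) =
          fun y => c' y * discriminant τ := by
        funext y
        rw [← hc' y τ, s2d_pair_apply]
        rfl
      have e2 : (fun x => tw 2 (s : ℍ → ℂ) x τ) =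
          Matrix.vecMul (fun y => c' y * discriminant τ) (Fmat k f τ)⁻¹ := by
        rw [← e1, Matrix.vecMul_vecMul, Matrix.mul_nonsing_inv _ (hU τ), Matrix.vecMul_one]
      have e3 := congrFun e2 (X.one N)
      rw [tw_one (inv_of_modularForm s)] at e3
      rw [e3, Finset.sum_congr rfl (fun i _ => by rw [hGval i τ]),
        s2d_sum_subtype (fun y => k y = 10)
          (fun y => c' y * (discriminant τ * ((Fmat k f τ)⁻¹) y (X.one N)))]
      simp only [Matrix.vecMul, dotProduct]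
      refine Finset.sum_congr rfl (fun y _ => ?_)
      split_ifs with h10
      · ring
      · rw [hc'0 y h10]; ring
    rw [hs]
    exact Submodule.sum_mem _ (fun i _ => Submodule.smul_mem _ _ (Submodule.subset_span ⟨i, rfl⟩))
  rw [Module.finrank_eq_card_basis (Module.Basis.mk hli hsp)]

end Fermat.Agent.S20
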