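import Fermat.Agent.S20.Defs

/-!
# S20 / S2 / Weights: the weights of a free basis lie in `{0,2,…,10}`, exactly one has weight `0`

## Proof sketch
* Every `f y` is nonzero: otherwise a column of the fundamental matrix vanishes, contradicting
  `hdet`.
* `0 ≤ k y`: a nonzero modular form of level `Γ₀(N)` has weight `≥ 0`
  (`ModularForm.isZero_of_neg_weight`).
* `Even (k y)`: `-1 ∈ Γ₀(N)` (`ModularForm.eq_zero_of_neg_one_mem`).
* `k y ≤ 10`: the dual form `g` of weight `12 - k y` given by `hdual y` is a nonzero cusp form: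
  `tw _ g x τ = Δ τ * (F τ)⁻¹ y x`, `Δ τ ≠ 0` (`discriminant_ne_zero`) and the row `y` of the
  invertible matrix `(F τ)⁻¹` is nonzero. A nonzero cusp form has weight `> 0` (weight `< 0`: zero;
  weight `0`: constant (`ModularForm.eq_const_of_weight_zero`) and vanishing at `i∞`, so zero).
  Hence `k y < 12`, and `k y` even gives `k y ≤ 10`.
* Exactly one `y` with `k y = 0`. Existence: apply `hgen` to the constant function `1` (weight 0);
  the coefficients `p j` have weight `0 - k j ≤ 0`, hence vanish unless `k j = 0`; so some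
  `k j = 0`. Uniqueness: if `k y = k y' = 0` with `y ≠ y'`, then `f y`, `f y'` are nonzero
  constants `c`, `c'` (weight 0 forms are constant), and the constants `p y := c'`, `p y' := -c`
  (level one, weight `0 = 0 - k y`) give a nontrivial relation contradicting `hind`.
-/

set_option autoImplicit false

open UpperHalfPlane hiding I
open ModularForm CongruenceSubgroup Matrix.SpecialLinearGroup Real Complex
open scoped MatrixGroups ModularForm Manifold

namespace Fermat.Agent.S20

/-- A nonzero modular form of level `Γ₀(N)` has nonnegative weight. -/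
lemma s2w_weight_nonneg {N : ℕ} [NeZero N] {w : ℤ} (g : ModularForm (Γ N) w)
    (hg : (g : ℍ → ℂ) ≠ 0) : 0 ≤ w := by
  by_contra h
  rw [not_le] at h
  apply hg
  rw [ModularForm.isZero_of_neg_weight h g]
  rfl

/-- A nonzero modular form of level `Γ₀(N)` has even weight. -/
lemma s2w_weight_even {N : ℕ} [NeZero N] {w : ℤ} (g : ModularForm (Γ N) w)
    (hg : (g : ℍ → ℂ) ≠ 0) : Even w := by
  by_contra h
  rw [Int.not_even_iff_odd] at h
  have hmem : (-1 : GL (Fin 2) ℝ) ∈ Γ N := by
    rw [Γ_mem_iff]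
    refine ⟨-1, ?_, ?_⟩
    · rw [Gamma0_mem]; simp
    · ext; simp
  apply hg
  rw [ModularForm.eq_zero_of_neg_one_mem hmem h g]
  rfl

/-- A modular form of level `Γ₀(N)` and weight `0` is constant. -/
lemma s2w_const_of_weight_zero {N : ℕ} [NeZero N] {w : ℤ} (g : ModularForm (Γ N) w)
    (hw : w = 0) : ∃ c : ℂ, (g : ℍ → ℂ) = Function.const ℍ c := by
  subst hw
  exact ModularForm.eq_const_of_weight_zero g

/-- A cusp form of level `Γ₀(N)` and weight `≤ 0` vanishes. -/
lemma s2w_cusp_nonpos {N : ℕ} [NeZero N] {w : ℤ} (hw : w ≤ 0) (g : CuspForm (Γ N) w) :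
    (g : ℍ → ℂ) = 0 := by
  rcases hw.lt_or_eq with h | h
  · have h1 := ModularForm.isZero_of_neg_weight h (ModularFormClass.modularForm g)
    have h2 := congrArg (fun q : ModularForm (Γ N) w => (q : ℍ → ℂ)) h1
    exact h2
  · obtain ⟨c, hc⟩ := s2w_const_of_weight_zero (ModularFormClass.modularForm g) h
    have hc' : (g : ℍ → ℂ) = Function.const ℍ c := hc
    have hz : IsZeroAtImInfty (g : ℍ → ℂ) := CuspFormClass.zero_at_infty g
    rw [hc'] at hz
    have h0 : c = 0 := tendsto_nhds_unique tendsto_const_nhds hz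
    rw [hc', h0]
    rfl

/-- The constant `c` as a level one form of weight `w` if `w = 0`, and `0` otherwise. -/
noncomputable def s2w_constForm (w : ℤ) (c : ℂ) : ModularForm 𝒮ℒ w :=
  if hw : w = 0 then hw ▸ ModularForm.const c else 0

lemma s2w_constForm_apply (w : ℤ) (c : ℂ) (τ : ℍ) :
    s2w_constForm w c τ = if w = 0 then c else 0 := by
  unfold s2w_constForm
  split_ifs with hw
  · subst hw; rfl
  · rfl

theorem s2_weights (N : ℕ) [NeZero N] (k : X N → ℤ) (f : ∀ y, ModularForm (Γ N) (k y))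
    (hgen : Gen k f) (hind : Indep k f) (hdet : ∀ τ : ℍ, (Fmat k f τ).det ≠ 0)
    (hdual : ∀ y, ∃ g : CuspForm (Γ N) (12 - k y), ∀ (x : X N) (τ : ℍ),
      tw (12 - k y) (g : ℍ → ℂ) x τ = discriminant τ * ((Fmat k f τ)⁻¹) y x) :
    (∀ y, 0 ≤ k y ∧ k y ≤ 10 ∧ Even (k y)) ∧ Fintype.card {y // k y = 0} = 1 := by
  -- every `f y` is nonzero
  have hne : ∀ y, (f y : ℍ → ℂ) ≠ 0 := by
    intro y h0
    apply hdet UpperHalfPlane.I
    apply Matrix.det_eq_zero_of_column_eq_zero y
    intro x
    show tw (k y) (f y : ℍ → ℂ) x UpperHalfPlane.I = 0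
    rw [h0, tw_zero]
    rfl
  have hnonneg : ∀ y, 0 ≤ k y := fun y => s2w_weight_nonneg (f y) (hne y)
  have heven : ∀ y, Even (k y) := fun y => s2w_weight_even (f y) (hne y)
  have hle : ∀ y, k y ≤ 10 := by
    intro y
    by_contra h
    rw [not_le] at h
    obtain ⟨r, hr⟩ := heven y
    have hw : 12 - k y ≤ 0 := by omega
    obtain ⟨g, hg⟩ := hdual y
    have hg0 := s2w_cusp_nonpos hw g
    have hrow : ∀ x, ((Fmat k f UpperHalfPlane.I)⁻¹) y x = 0 := by
      intro x
      have h1 := hg x UpperHalfPlane.I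
      rw [hg0, tw_zero] at h1
      exact (mul_eq_zero.mp h1.symm).resolve_left (discriminant_ne_zero _)
    have hdet0 : ((Fmat k f UpperHalfPlane.I)⁻¹).det = 0 :=
      Matrix.det_eq_zero_of_row_eq_zero y hrow
    have hmul := Matrix.nonsing_inv_mul (Fmat k f UpperHalfPlane.I)
      (isUnit_iff_ne_zero.mpr (hdet _))
    have h2 := congrArg Matrix.det hmul
    rw [Matrix.det_mul, hdet0, zero_mul, Matrix.det_one] at h2
    exact zero_ne_one h2
  -- existence of a generator of weight `0`
  have hex : ∃ y, k y = 0 := by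
    by_contra hno
    rw [not_exists] at hno
    obtain ⟨p, hp⟩ := hgen 0 (ModularForm.const 1)
    have hp0 : ∀ j, (p j : ℍ → ℂ) = 0 := fun j =>
      ModularFormClass.levelOne_neg_weight_eq_zero
        (by have h1 := hnonneg j; have h2 := hno j; omega) (p j)
    have h3 := congrFun hp UpperHalfPlane.I
    simp [hp0] at h3
  -- uniqueness
  have huniq : ∀ y y', k y = 0 → k y' = 0 → y = y' := by
    intro y y' hy hy'
    by_contra hyy
    obtain ⟨c, hc⟩ := s2w_const_of_weight_zero (f y) hy
    obtain ⟨c', hc'⟩ := s2w_const_of_weight_zero (f y') hy'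
    have hc'0 : c' ≠ 0 := by
      rintro rfl
      exact hne y' hc'
    have h1 := hind 0 (fun j => s2w_constForm (0 - k j)
      (if j = y then c' else if j = y' then -c else 0)) ?_ y
    · have h2 := congrArg (fun q : ModularForm 𝒮ℒ (0 - k y) => q UpperHalfPlane.I) h1
      simp [s2w_constForm_apply, hy] at h2
      exact hc'0 h2
    · ext τ
      simp only [Finset.sum_apply, Pi.mul_apply, s2w_constForm_apply, Pi.zero_apply]
      rw [Fintype.sum_eq_add y y' hyy ?_]
      · simp [hy, hy', hc, hc', Ne.symm hyy]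
        ring
      · intro j hj
        simp [hj.1, hj.2]
  refine ⟨fun y => ⟨hnonneg y, hle y, heven y⟩, ?_⟩
  rw [Fintype.card_eq_one_iff]
  obtain ⟨y0, hy0⟩ := hex
  exact ⟨⟨y0, hy0⟩, fun ⟨y, hy⟩ => Subtype.ext (huniq y y0 hy hy0)⟩

end Fermat.Agent.S20
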